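import Fermat.Agent.LT.T6.H137.LocalKit

/-!
# Row LT, tower T6, leaf T6.00q.2 `LocalAC438` (helper137, OFF-MAIN): PROVED

`localAC137 : H438.LocalAC438` VERBATIM (cut of helper438, `HasseQ3.lean` 7b061f61):
if `x ∈ L^×` is a local norm from `M = L(√-3)` at every place of `L`, then `N_{L/ℚ}(x) > 0` and
`v_p(N_{L/ℚ} x)` is even for every prime `p ≡ 2 mod 3`.

* positivity (`norm_pos_of_real_pos137`, ANY number field): `N x = ∏_φ φ(x)` over the complex
  embeddings, grouped by infinite places; a real place contributes `φ(x) > 0` (K3), a complex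
  place `|φ(x)|² > 0`;
* parity (`even_padicValRat_norm137`, ANY number field): the finite part of the product formula of
  Mathlib, `∏ᶠ_w |x|_w = |N x|⁻¹` with `|x|_w = (N w)^(-ord_w x)`; a place with `N w ≡ 2 mod 3`
  has `ord_w x` even (K2), every other place has `v_p(N w)` even (`N w` is a prime power).
-/

set_option autoImplicit false

namespace Fermat.Agent.LT.T6.H137

open NumberField IsDedekindDomain IsDedekindDomain.HeightOneSpectrum WithZero
  NumberField.InfinitePlace NumberField.ComplexEmbedding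



/-! ## LOCAL-A, parity part -/

/-- `t` is a nonzero rational with even `p`-adic valuation. -/
def EvenVal137 (p : ℕ) (t : ℝ) : Prop :=
  ∃ q : ℚ, q ≠ 0 ∧ (q : ℝ) = t ∧ Even (padicValRat p q)

theorem evenVal_one137 (p : ℕ) : EvenVal137 p 1 :=
  ⟨1, one_ne_zero, by simp, by simp⟩

theorem evenVal_mul137 (p : ℕ) [Fact p.Prime] (s t : ℝ) (hs : EvenVal137 p s)
    (ht : EvenVal137 p t) : EvenVal137 p (s * t) := by
  obtain ⟨q, hq, rfl, hqe⟩ := hs
  obtain ⟨r, hr, rfl, hre⟩ := ht
  exact ⟨q * r, mul_ne_zero hq hr, by push_cast; rfl, by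
    rw [padicValRat.mul hq hr]; exact hqe.add hre⟩

theorem two_pow_odd_mod_three137 (f : ℕ) (hf : Odd f) : 2 ^ f % 3 = 2 := by
  obtain ⟨j, rfl⟩ := hf
  rw [pow_succ, pow_mul, Nat.mul_mod, Nat.pow_mod]
  norm_num

/-- A prime power `N` with `N % 3 ≠ 2` has even valuation at every prime `p ≡ 2 mod 3`. -/
theorem even_padicValNat_of_primePow137 (p : ℕ) [hp : Fact p.Prime] (hp3 : p % 3 = 2) (N : ℕ)
    (hN : IsPrimePow N) (hN3 : N % 3 ≠ 2) : Even (padicValNat p N) := by
  obtain ⟨ℓ, f, hℓ, hf, rfl⟩ := hN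
  have hℓ' : ℓ.Prime := hℓ.nat_prime
  rw [padicValNat.pow]
  by_cases h : p = ℓ
  · subst h
    rw [padicValNat_self, mul_one]
    by_contra hodd
    rw [Nat.not_even_iff_odd] at hodd
    apply hN3
    rw [Nat.pow_mod, hp3]
    exact two_pow_odd_mod_three137 f hodd
  · have : Fact ℓ.Prime := ⟨hℓ'⟩
    rw [padicValNat_primes h, mul_zero]
    exact Even.zero

theorem toNNReal_exp137 {e : NNReal} (he : e ≠ 0) (n : ℤ) :
    WithZeroMulInt.toNNReal he (exp n) = e ^ n := by
  rw [WithZeroMulInt.toNNReal_neg_apply he (exp_ne_zero)]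
  rfl

/-- The value of a finite place at `x`, when the valuations of `x` at the places with
`#κ ≡ 2 mod 3` are even. -/
theorem finitePlace_evenVal137 (L : Type) [Field L] [NumberField L] (p : ℕ) [Fact p.Prime]
    (hp3 : p % 3 = 2) (x : L) (hx : x ≠ 0)
    (hpar : ∀ u : HeightOneSpectrum (𝓞 L), Nat.card (𝓞 L ⧸ u.asIdeal) % 3 = 2 →
      ∃ k : ℤ, u.valuation L x = exp (2 * k)) (w : FinitePlace L) :
    EvenVal137 p (w x) := by
  classical
  set v := w.maximalIdeal with hv
  have hw : w = FinitePlace.mk v := (FinitePlace.mk_maximalIdeal w).symm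
  have hvx : v.valuation L x ≠ 0 := (map_ne_zero _).mpr hx
  have hwx : w x = ((Ideal.absNorm v.asIdeal : ℕ) : ℝ) ^ (log (v.valuation L x)) := by
    rw [hw, FinitePlace.mk_apply, FinitePlace.norm_embedding']
    conv_lhs => rw [← exp_log hvx]
    rw [toNNReal_exp137]
    push_cast
    rfl
  have hcard : Ideal.absNorm v.asIdeal = Nat.card (𝓞 L ⧸ v.asIdeal) := rfl
  have hN0 : ((Ideal.absNorm v.asIdeal : ℕ) : ℚ) ≠ 0 := by
    have := NumberField.HeightOneSpectrum.one_lt_absNorm v
    exact_mod_cast (by omega : Ideal.absNorm v.asIdeal ≠ 0)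
  refine ⟨((Ideal.absNorm v.asIdeal : ℕ) : ℚ) ^ (log (v.valuation L x)), zpow_ne_zero _ hN0,
    by rw [hwx]; push_cast; rfl, ?_⟩
  rw [padicValRat.zpow, padicValRat.of_nat]
  by_cases h3 : Ideal.absNorm v.asIdeal % 3 = 2
  · obtain ⟨k, hk⟩ := hpar v (by rw [← hcard]; exact h3)
    rw [hk, log_exp]
    exact (even_two_mul k).mul_right _
  · have := v.isMaximal
    let _ : Field (𝓞 L ⧸ v.asIdeal) := Ideal.Quotient.field v.asIdeal
    have hfin : Finite (𝓞 L ⧸ v.asIdeal) :=
      Nat.finite_of_card_ne_zero (by rw [← hcard]; have := NumberField.HeightOneSpectrum.one_lt_absNorm v; omega)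
    have : Fintype (𝓞 L ⧸ v.asIdeal) := Fintype.ofFinite _
    have hpp : IsPrimePow (Ideal.absNorm v.asIdeal) := by
      rw [hcard, Nat.card_eq_fintype_card]
      exact FiniteField.isPrimePow_card _
    have := even_padicValNat_of_primePow137 p hp3 _ hpp h3
    exact (Int.even_coe_nat _ |>.mpr this).mul_left _

/-- **LOCAL-A, parity.**  If the valuations of `x` at the places with `#κ ≡ 2 mod 3` are even,
then `v_p(N_{L/ℚ} x)` is even for every prime `p ≡ 2 mod 3`. -/
theorem even_padicValRat_norm137 (L : Type) [Field L] [NumberField L] (p : ℕ) (hp : p.Prime)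
    (hp3 : p % 3 = 2) (x : L) (hx : x ≠ 0)
    (hpar : ∀ u : HeightOneSpectrum (𝓞 L), Nat.card (𝓞 L ⧸ u.asIdeal) % 3 = 2 →
      ∃ k : ℤ, u.valuation L x = exp (2 * k)) :
    Even (padicValRat p (Algebra.norm ℚ x)) := by
  have : Fact p.Prime := ⟨hp⟩
  have h1 : EvenVal137 p (∏ᶠ w : FinitePlace L, w x) :=
    finprod_induction (EvenVal137 p) (evenVal_one137 p) (evenVal_mul137 p)
      (finitePlace_evenVal137 L p hp3 x hx hpar)
  rw [FinitePlace.prod_eq_inv_abs_norm hx] at h1
  obtain ⟨q, hq, hqe, hqeven⟩ := h1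
  have h2 : q = |Algebra.norm ℚ x|⁻¹ := by
    have : (q : ℝ) = ((|Algebra.norm ℚ x|⁻¹ : ℚ) : ℝ) := by rw [hqe]
    exact_mod_cast this
  rw [h2, padicValRat.inv, even_neg] at hqeven
  rcases abs_choice (Algebra.norm ℚ x) with h | h
  · rwa [h] at hqeven
  · rwa [h, padicValRat.neg] at hqeven



/-! ## LOCAL-A, positivity part -/

/-- `z` is a positive real number. -/
def PosReal137 (z : ℂ) : Prop := ∃ t : ℝ, 0 < t ∧ (t : ℂ) = z

theorem posReal_one137 : PosReal137 1 := ⟨1, one_pos, by simp⟩

theorem posReal_mul137 (a b : ℂ) (ha : PosReal137 a) (hb : PosReal137 b) :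
    PosReal137 (a * b) := by
  obtain ⟨s, hs, rfl⟩ := ha
  obtain ⟨t, ht, rfl⟩ := hb
  exact ⟨s * t, mul_pos hs ht, by push_cast; rfl⟩

/-- **LOCAL-A, positivity.**  An element of a number field which is positive at every real
place has positive norm. -/
theorem norm_pos_of_real_pos137 (K : Type*) [Field K] [NumberField K] (x : K) (hx : x ≠ 0)
    (h : ∀ (w : InfinitePlace K) (hw : w.IsReal), 0 < w.embedding_of_isReal hw x) :
    0 < Algebra.norm ℚ x := by
  classical
  have h1 : PosReal137 (∏ φ : K →+* ℂ, φ x) := by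
    rw [← Finset.prod_fiberwise Finset.univ InfinitePlace.mk (fun φ => φ x)]
    apply Finset.prod_induction _ PosReal137 posReal_mul137 posReal_one137
    intro w _
    have hfib : (Finset.univ.filter (fun φ : K →+* ℂ => InfinitePlace.mk φ = w)) =
        {w.embedding} ∪ {conjugate w.embedding} := by
      ext φ
      simp only [Finset.mem_filter, Finset.mem_univ, true_and, Finset.mem_union,
        Finset.mem_singleton]
      constructor
      · intro hφ
        have h2 : InfinitePlace.mk φ = InfinitePlace.mk w.embedding := by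
          rw [hφ, mk_embedding]
        rcases mk_eq_iff.mp h2 with h3 | h3
        · exact Or.inl h3
        · right
          rw [← h3, conjugate, star_star]
      · rintro (rfl | rfl)
        · exact mk_embedding w
        · rw [mk_conjugate_eq, mk_embedding]
    by_cases hw : w.IsReal
    · rw [hfib, conjugate_embedding_eq_of_isReal hw, Finset.union_idempotent,
        Finset.prod_singleton]
      exact ⟨embedding_of_isReal hw x, h w hw, embedding_of_isReal_apply hw x⟩
    · have hne : w.embedding ≠ conjugate w.embedding := by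
        intro heq
        apply hw
        rw [InfinitePlace.isReal_iff, ComplexEmbedding.isReal_iff]
        exact heq.symm
      rw [hfib, Finset.prod_union (by simpa using hne), Finset.prod_singleton,
        Finset.prod_singleton]
      refine ⟨Complex.normSq (w.embedding x),
        Complex.normSq_pos.mpr ((map_ne_zero _).mpr hx), ?_⟩
      rw [conjugate_coe_eq, Complex.mul_conj]
  have h2 : (algebraMap ℚ ℂ (Algebra.norm ℚ x)) = ∏ φ : K →+* ℂ, φ x := by
    rw [Algebra.norm_eq_prod_embeddings ℚ ℂ x]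
    exact (Fintype.prod_equiv (RingHom.equivRatAlgHom K ℂ) (fun φ => φ x) (fun f => f x)
      (fun _ => by simp [RingHom.equivRatAlgHom_apply])).symm
  rw [← h2] at h1
  obtain ⟨t, ht, hte⟩ := h1
  have h3 : ((Algebra.norm ℚ x : ℚ) : ℝ) = t := by
    have : ((t : ℝ) : ℂ) = (((Algebra.norm ℚ x : ℚ) : ℝ) : ℂ) := by
      rw [hte]; simp
    exact_mod_cast this.symm
  have : (0 : ℝ) < ((Algebra.norm ℚ x : ℚ) : ℝ) := by rw [h3]; exact ht
  exact_mod_cast this

/-! ## The leaf -/

/-- **T6.00q.2 `LocalAC438`, VERBATIM.** -/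
theorem localAC137 : H438.LocalAC438 := by
  intro L M _ _ _ _ _ hp x hx hfin hinf
  refine ⟨?_, ?_⟩
  · exact norm_pos_of_real_pos137 L x hx
      (fun w hw => locNorm_pos137 L M hp w hw x hx (hinf w))
  · intro p hpp hp3
    exact even_padicValRat_norm137 L p hpp hp3 x hx
      (fun u hu => locNorm_parity137 L M hp u hu x hx (hfin u))

end Fermat.Agent.LT.T6.H137
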