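import Fermat.Agent.LT.T6.H137.HasseQ
import Fermat.Agent.LT.T6.H137.LocalA
import Fermat.Agent.LT.T6.H157.QuadGen
import Fermat.Agent.LT.T6.H166.NormF
import Fermat.Agent.LT.T6.H857.AlgB
import Fermat.Agent.LT.T6.H439.LocMul
import Fermat.Agent.LT.T6.H793.AlgC

/-!
# Row LT, tower T6, leaf T6.00b `HasseNormQC`: integration (helper137, OFF-MAIN)

Six of the eight leaves of the cut of helper438 are CLOSED: five by the vendored byte-identical
files of their owners (helper157 QuadGen 63e1b826, helper166 NormF a57b113d, helper857 AlgB
1c7e2b3a, helper439 LocMul 1767385d, helper793 AlgC f86e4947), `LocalAC438` by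
`H137/LocalA.lean`.  What is still open: `LocalCC438`, `CoreC438`.
-/

set_option autoImplicit false

namespace Fermat.Agent.LT.T6.H137

open Fermat.Agent.LT.T6

/-- The leaves of T6.00b which are still open. -/
structure Open137 : Prop where
  localC : H438.LocalCC438
  core : H438.CoreC438

/-- **T6.00b from the open leaves.** -/
theorem hasseNormQC_of_open137 (h : Open137) : HasseNormQC :=
  hasseNormQC_of_leaves137 H157.quadGenC157 localAC137 H166.normFC166 H857.algBC857
    H439.locMulC_h439 h.localC h.core H793.algCC793

end Fermat.Agent.LT.T6.H137
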