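import Fermat.Agent.LT.T6.Spec
import Fermat.Agent.LT.T6.H438.HasseQ3

/-!
# Row LT, tower T6, leaf T6.00b `HasseNormQC` (owner helper137, OFF-MAIN): the top

`T6.HasseNormQC` VERBATIM (Spec v3 of helper22, sha256 8c5f2ae7) from the cut of helper438
(`H438.HasseNormQ3C438`, file `H438/HasseQ3.lean`, sha256 7b061f61, vendored byte-identical):

    T6.HasseNormQC  ⟸  H438.HasseNormQ3C438  ⟸  the eight elementary leaves of helper438.

The only difference of the two statements is the shape of the hypothesis `√-3 ∉ L`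
(`∀ x : L, algebraMap L M x ≠ z` versus `∀ s : L, s ^ 2 ≠ -3`); `IsGalois L M` is not used.
-/

set_option autoImplicit false

namespace Fermat.Agent.LT.T6.H137

open Fermat.Agent.LT.T6

/-- The hypotheses of `T6.HasseNormQC` give a pair of the quadratic step in the sense of
helper438. -/
theorem isQ3Pair_of137 (L M : Type) [Field L] [NumberField L] [Field M] [NumberField M]
    [Algebra L M] (h1 : Module.finrank ℚ L = 2) (h2 : Module.finrank L M = 2)
    (h3 : ∃ z : M, z ^ 2 = -3 ∧ ∀ x : L, algebraMap L M x ≠ z) : H438.IsQ3Pair438 L M := by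
  obtain ⟨z, hz, hzL⟩ := h3
  refine ⟨h1, h2, ⟨z, hz⟩, ?_⟩
  intro s hs
  have h : (algebraMap L M s) ^ 2 = z ^ 2 := by
    rw [← map_pow, hs, hz, map_neg, map_ofNat]
  rcases sq_eq_sq_iff_eq_or_eq_neg.mp h with h | h
  · exact hzL s h
  · exact hzL (-s) (by rw [map_neg, h, neg_neg])

/-- **T6.00b, reduction to the statement of helper438.** -/
theorem hasseNormQC_of_Q3_137 (h : H438.HasseNormQ3C438) : HasseNormQC := by
  intro L M _ _ _ _ _ _ h1 h2 h3 x hx hfin hinf
  exact h L M (isQ3Pair_of137 L M h1 h2 h3) x hx hfin hinf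

/-- **T6.00b from the eight elementary leaves** (registry rows 1040 -- 1047). -/
theorem hasseNormQC_of_leaves137 (hgen : H438.QuadGenC438) (hA : H438.LocalAC438)
    (hF : H438.NormFC438) (hB : H438.AlgBC438) (hmul : H438.LocMulC438)
    (hC : H438.LocalCC438) (hcore : H438.CoreC438) (hAC : H438.AlgCC438) : HasseNormQC :=
  hasseNormQC_of_Q3_137 (H438.hasseNormQ3_of_leaves438 hgen hA hF hB hmul hC hcore hAC)

end Fermat.Agent.LT.T6.H137
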