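import Fermat.Agent.LT.T6.Spec
import Fermat.Agent.LT.T6.H438.HasseQ3

/-!
# Row LT, tower T6, leaf T6.00b `HasseNormQC`: LOCAL KIT (helper137, OFF-MAIN)

Shared tools for the local leaves `LocalAC438`, `LocalCC438`, `LocMulC438` of the cut of helper438
(all PROVED here, Mathlib only apart from the two vendored Spec files):

* K1 `tensor_norm_form137`, `locNorm_form_fin137`, `locNorm_form_inf137`: a local norm from
  `L_u ⊗_L M` (`M = L(√-3)`) is `α² + 3 β²` with `α β : L_u`;
* K2 `parity_of_local_form137`, `locNorm_parity137`: at a finite place `u` whose residue field has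
  `≡ 2 mod 3` elements, a local norm `x ∈ L^×` has EVEN valuation (density of `L` in `L_u` +
  `X² - XY + Y²` anisotropic over the residue field; `p = 2` included);
* K3 `real_pos137`, `locNorm_pos137`: at a real place, a local norm `x ≠ 0` is positive.
-/

set_option autoImplicit false

namespace Fermat.Agent.LT.T6.H137

open scoped TensorProduct
open IsDedekindDomain IsDedekindDomain.HeightOneSpectrum WithZero NumberField
  NumberField.InfinitePlace NumberField.InfinitePlace.Completion

/-! ## K1: the tensor norm form -/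



theorem linInd_one_r137 (L M : Type) [Field L] [Field M] [Algebra L M] (r : M) (hr : r ^ 2 = -3)
    (hno : ∀ s : L, s ^ 2 ≠ -3) : LinearIndependent L ![(1 : M), r] := by
  rw [LinearIndependent.pair_iff]
  intro a b hab
  by_cases hb : b = 0
  · subst hb
    simp only [zero_smul, add_zero] at hab
    have ha : a = 0 := by
      have h1 : algebraMap L M a = 0 := by rw [Algebra.algebraMap_eq_smul_one]; exact hab
      exact (map_eq_zero (algebraMap L M)).mp h1
    exact ⟨ha, rfl⟩
  · exfalso
    have h1 : r = algebraMap L M (-a / b) := by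
      have h2 : algebraMap L M a + algebraMap L M b * r = 0 := by
        rw [Algebra.algebraMap_eq_smul_one, ← Algebra.smul_def]; exact hab
      have hb' : algebraMap L M b ≠ 0 := (map_ne_zero (algebraMap L M)).mpr hb
      rw [map_div₀, map_neg]
      field_simp
      linear_combination h2
    apply hno (-a / b)
    apply (algebraMap L M).injective
    rw [map_pow, ← h1, hr, map_neg, map_ofNat]

/-- The basis `{1, r}` of `M` over `L`. -/
noncomputable def basisOneR137 (L M : Type) [Field L] [Field M] [Algebra L M] (r : M)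
    (hr : r ^ 2 = -3) (hno : ∀ s : L, s ^ 2 ≠ -3) (h2 : Module.finrank L M = 2) :
    Module.Basis (Fin 2) L M :=
  basisOfLinearIndependentOfCardEqFinrank (linInd_one_r137 L M r hr hno) (by simp [h2])

theorem basisOneR137_zero (L M : Type) [Field L] [Field M] [Algebra L M] (r : M)
    (hr : r ^ 2 = -3) (hno : ∀ s : L, s ^ 2 ≠ -3) (h2 : Module.finrank L M = 2) :
    basisOneR137 L M r hr hno h2 0 = 1 := by
  simp [basisOneR137]

theorem basisOneR137_one (L M : Type) [Field L] [Field M] [Algebra L M] (r : M)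
    (hr : r ^ 2 = -3) (hno : ∀ s : L, s ^ 2 ≠ -3) (h2 : Module.finrank L M = 2) :
    basisOneR137 L M r hr hno h2 1 = r := by
  simp [basisOneR137]

/-- **K1, TENSOR FORM.**  Every norm from `k ⊗_L M` to `k` is `α² + 3 β²`. -/
theorem tensor_norm_form137 (L M : Type) [Field L] [Field M] [Algebra L M] (r : M)
    (hr : r ^ 2 = -3) (hno : ∀ s : L, s ^ 2 ≠ -3) (h2 : Module.finrank L M = 2)
    (k : Type) [Field k] [Algebra L k] (y : k ⊗[L] M) :
    ∃ α β : k, Algebra.norm k y = α ^ 2 + 3 * β ^ 2 := by
  classical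
  set b := basisOneR137 L M r hr hno h2 with hb
  set B : Module.Basis (Fin 2) k (k ⊗[L] M) := Algebra.TensorProduct.basis k b with hB
  have hB0 : B 0 = 1 := by
    rw [hB, Algebra.TensorProduct.basis_apply, hb, basisOneR137_zero]; rfl
  have hB1 : B 1 = (1 : k) ⊗ₜ[L] r := by
    rw [hB, Algebra.TensorProduct.basis_apply, hb, basisOneR137_one]
  have hrr : ((1 : k) ⊗ₜ[L] r) * ((1 : k) ⊗ₜ[L] r) = -3 := by
    rw [Algebra.TensorProduct.tmul_mul_tmul, one_mul, ← sq, hr]
    have : ((1 : k) ⊗ₜ[L] (-3 : M)) = -3 * ((1 : k) ⊗ₜ[L] (1 : M)) := by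
      rw [show (-3 : M) = (-3 : ℤ) • (1 : M) by simp, TensorProduct.tmul_smul]
      simp
    rw [this, ← Algebra.TensorProduct.one_def, mul_one]
  refine ⟨B.repr y 0, B.repr y 1, ?_⟩
  have hy : y = B.repr y 0 • (1 : k ⊗[L] M) + B.repr y 1 • ((1 : k) ⊗ₜ[L] r) := by
    conv_lhs => rw [← B.sum_repr y]
    rw [Fin.sum_univ_two, hB0, hB1]
  rw [Algebra.norm_eq_matrix_det B, Matrix.det_fin_two]
  have e00 : Algebra.leftMulMatrix B y 0 0 = B.repr y 0 := by
    rw [Algebra.leftMulMatrix_eq_repr_mul, hB0, mul_one]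
  have e10 : Algebra.leftMulMatrix B y 1 0 = B.repr y 1 := by
    rw [Algebra.leftMulMatrix_eq_repr_mul, hB0, mul_one]
  have hmul : y * B 1 = (-3 * B.repr y 1) • B 0 + B.repr y 0 • B 1 := by
    rw [hB0, hB1]
    conv_lhs => rw [hy]
    rw [add_mul, smul_mul_assoc, smul_mul_assoc, one_mul, hrr]
    rw [add_comm]
    congr 1
    rw [Algebra.smul_def, Algebra.smul_def, mul_one, map_mul, map_neg, map_ofNat]
    ring
  have e01 : Algebra.leftMulMatrix B y 0 1 = -3 * B.repr y 1 := by
    rw [Algebra.leftMulMatrix_eq_repr_mul, hmul]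
    simp
  have e11 : Algebra.leftMulMatrix B y 1 1 = B.repr y 0 := by
    rw [Algebra.leftMulMatrix_eq_repr_mul, hmul]
    simp
  rw [e00, e10, e01, e11]; ring

/-! ## K2: parity at the finite places with `#κ ≡ 2 mod 3` -/



/-- In a finite field with `q ≡ 2 mod 3` elements, `T² - T + 1` has no root. -/
theorem no_root_of_card137 (κ : Type*) [Field κ] [Finite κ] (h : Nat.card κ % 3 = 2) (s : κ) :
    s ^ 2 - s + 1 ≠ 0 := by
  classical
  have : Fintype κ := Fintype.ofFinite κ
  intro hs
  have hq : Fintype.card κ % 3 = 2 := by rwa [Nat.card_eq_fintype_card] at h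
  have hs3 : (-s) ^ 3 = 1 := by linear_combination (-(s + 1)) * hs
  have hs0 : -s ≠ 0 := by
    intro h0
    rw [h0] at hs3
    simp at hs3
  have h1 := FiniteField.pow_card_sub_one_eq_one (-s) hs0
  obtain ⟨m, hm⟩ : ∃ m, Fintype.card κ - 1 = 3 * m + 1 := ⟨Fintype.card κ / 3, by omega⟩
  rw [hm, pow_succ, pow_mul, hs3, one_pow, one_mul] at h1
  have h3 : (3 : κ) = 0 := by
    have : s = -1 := by linear_combination -h1
    rw [this] at hs
    linear_combination hs
  have hc : ((Fintype.card κ : ℕ) : κ) = 0 := FiniteField.cast_card_eq_zero κ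
  have hq' : Fintype.card κ = 3 * (Fintype.card κ / 3) + 2 := by omega
  rw [hq'] at hc
  push_cast at hc
  rw [h3, zero_mul, zero_add] at hc
  have : (1 : κ) = 0 := by linear_combination h3 - hc
  exact one_ne_zero this

section Dedekind

variable {R : Type*} [CommRing R] [IsDedekindDomain R] {K : Type*} [Field K] [Algebra R K]
  [IsFractionRing R K] (v : HeightOneSpectrum R)

/-- If `T² - T + 1` has no root in the residue field, it is a unit at every `v`-integer. -/
theorem val_quad_eq_one137 (hκ : ∀ s : R ⧸ v.asIdeal, s ^ 2 - s + 1 ≠ 0) (t : K)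
    (ht : v.valuation K t ≤ 1) : v.valuation K (t ^ 2 - t + 1) = 1 := by
  obtain ⟨n, ⟨d, hd⟩, hnd⟩ := exists_primeCompl_mul_eq_of_integer v t ht
  have hd' : d ∉ v.asIdeal := hd
  have hvd : v.valuation K (algebraMap R K d) = 1 := (valuation_eq_one_iff_notMem v).mpr hd'
  have key : (t ^ 2 - t + 1) * (algebraMap R K d) ^ 2 = algebraMap R K (n ^ 2 - n * d + d ^ 2) := by
    simp only [map_add, map_sub, map_mul, map_pow]
    simp only at hnd
    rw [← hnd]; ring
  have h1 : v.valuation K (t ^ 2 - t + 1) = v.valuation K (algebraMap R K (n ^ 2 - n * d + d ^ 2)) := by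
    rw [← key, map_mul, map_pow, hvd, one_pow, mul_one]
  rw [h1, valuation_eq_one_iff_notMem]
  intro hmem
  have := v.isMaximal
  let _ : Field (R ⧸ v.asIdeal) := Ideal.Quotient.field v.asIdeal
  have hq : (Ideal.Quotient.mk v.asIdeal) (n ^ 2 - n * d + d ^ 2) = 0 :=
    Ideal.Quotient.eq_zero_iff_mem.mpr hmem
  have hdq : (Ideal.Quotient.mk v.asIdeal) d ≠ 0 := fun h0 =>
    hd' (Ideal.Quotient.eq_zero_iff_mem.mp h0)
  simp only [map_add, map_sub, map_mul, map_pow] at hq
  apply hκ ((Ideal.Quotient.mk v.asIdeal) n / (Ideal.Quotient.mk v.asIdeal) d)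
  field_simp
  linear_combination hq

/-- Parity of the valuation of the norm form `X² - XY + Y²`. -/
theorem val_form_even137 (hκ : ∀ s : R ⧸ v.asIdeal, s ^ 2 - s + 1 ≠ 0) (X Y : K)
    (h : X ^ 2 - X * Y + Y ^ 2 ≠ 0) :
    ∃ k : ℤ, v.valuation K (X ^ 2 - X * Y + Y ^ 2) = exp (2 * k) := by
  have aux : ∀ X Y : K, X ^ 2 - X * Y + Y ^ 2 ≠ 0 → v.valuation K Y ≤ v.valuation K X →
      ∃ k : ℤ, v.valuation K (X ^ 2 - X * Y + Y ^ 2) = exp (2 * k) := by
    intro X Y h hle
    have hX : X ≠ 0 := by
      rintro rfl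
      rw [map_zero, le_zero_iff, map_eq_zero] at hle
      subst hle
      simp at h
    have hvX : v.valuation K X ≠ 0 := (map_ne_zero _).mpr hX
    have ht : v.valuation K (Y / X) ≤ 1 := by
      rw [map_div₀]
      exact div_le_one_of_le₀ hle zero_le
    have h1 := val_quad_eq_one137 v hκ (Y / X) ht
    have h2 : X ^ 2 - X * Y + Y ^ 2 = X ^ 2 * ((Y / X) ^ 2 - Y / X + 1) := by
      field_simp
      ring
    refine ⟨log (v.valuation K X), ?_⟩
    rw [h2, map_mul, h1, mul_one, map_pow, two_mul, exp_add, exp_log hvX, sq]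
  rcases le_total (v.valuation K Y) (v.valuation K X) with hle | hle
  · exact aux X Y h hle
  · have h' : Y ^ 2 - Y * X + X ^ 2 ≠ 0 := by
      intro h0; apply h; linear_combination h0
    obtain ⟨k, hk⟩ := aux Y X h' hle
    exact ⟨k, by rw [← hk]; congr 1; ring⟩

/-- Parity of the valuation of `a² + 3 b²` in `K`. -/
theorem val_sq_add_three_sq_even137 (hκ : ∀ s : R ⧸ v.asIdeal, s ^ 2 - s + 1 ≠ 0) (a b : K)
    (h : a ^ 2 + 3 * b ^ 2 ≠ 0) :
    ∃ k : ℤ, v.valuation K (a ^ 2 + 3 * b ^ 2) = exp (2 * k) := by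
  have e : a ^ 2 + 3 * b ^ 2 = (a + b) ^ 2 - (a + b) * (2 * b) + (2 * b) ^ 2 := by ring
  rw [e] at h ⊢
  exact val_form_even137 v hκ _ _ h

/-- DENSITY BRIDGE: a value `α² + 3 β²` of the form on the completion, equal to `x ∈ K^×`,
has the valuation of a value of the form on `K`. -/
theorem exists_form_val_eq137 (x : K) (hx : x ≠ 0) (α β : v.adicCompletion K)
    (h : α ^ 2 + 3 * β ^ 2 = algebraMap K (v.adicCompletion K) x) :
    ∃ a b : K, a ^ 2 + 3 * b ^ 2 ≠ 0 ∧
      v.valuation K (a ^ 2 + 3 * b ^ 2) = v.valuation K x := by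
  have hvx : v.valuation K x ≠ 0 := (map_ne_zero _).mpr hx
  have hvx' : Valued.v (algebraMap K (v.adicCompletion K) x) ≠ 0 := by
    rw [algebraMap_adicCompletion, Function.comp_apply, Algebra.algebraMap_self_apply,
      valuedAdicCompletion_eq_valuation']
    exact hvx
  let f : v.adicCompletion K × v.adicCompletion K → v.adicCompletion K :=
    fun p => p.1 ^ 2 + 3 * p.2 ^ 2
  have hf : Continuous f := by fun_prop
  let S : Set (v.adicCompletion K) :=
    {z | Valued.v z = Valued.v (algebraMap K (v.adicCompletion K) x)}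
  have hS : S ∈ nhds (algebraMap K (v.adicCompletion K) x) := Valued.locally_const hvx'
  have hpre : f ⁻¹' S ∈ nhds (α, β) := by
    apply hf.continuousAt.preimage_mem_nhds
    show S ∈ nhds (α ^ 2 + 3 * β ^ 2)
    rw [h]; exact hS
  have hd : DenseRange (Prod.map (algebraMap K (v.adicCompletion K))
      (algebraMap K (v.adicCompletion K))) :=
    (denseRange_algebraMap (K := K) v).prodMap (denseRange_algebraMap (K := K) v)
  obtain ⟨⟨a, b⟩, hab⟩ := hd.exists_mem_open isOpen_interior
    ⟨(α, β), mem_interior_iff_mem_nhds.mpr hpre⟩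
  have hab' : (algebraMap K (v.adicCompletion K) a) ^ 2 +
      3 * (algebraMap K (v.adicCompletion K) b) ^ 2 ∈ S := by
    have := interior_subset hab
    exact this
  have e : (algebraMap K (v.adicCompletion K) a) ^ 2 +
      3 * (algebraMap K (v.adicCompletion K) b) ^ 2 =
      algebraMap K (v.adicCompletion K) (a ^ 2 + 3 * b ^ 2) := by
    rw [map_add, map_mul, map_pow, map_pow, map_ofNat]
  have h2 : v.valuation K (a ^ 2 + 3 * b ^ 2) = v.valuation K x := by
    have h3 : Valued.v (algebraMap K (v.adicCompletion K) (a ^ 2 + 3 * b ^ 2)) =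
        Valued.v (algebraMap K (v.adicCompletion K) x) := by
      rw [← e]; exact hab'
    rwa [algebraMap_adicCompletion, Function.comp_apply, Function.comp_apply,
      Algebra.algebraMap_self_apply, Algebra.algebraMap_self_apply,
      valuedAdicCompletion_eq_valuation', valuedAdicCompletion_eq_valuation'] at h3
  refine ⟨a, b, ?_, h2⟩
  intro h0
  rw [h0, map_zero] at h2
  exact hvx h2.symm

/-- **K2, PARITY.**  At a place `v` whose residue field has no root of `T² - T + 1`, the local
norms from `K_v(√-3)` have even valuation. -/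
theorem parity_of_local_form137 (hκ : ∀ s : R ⧸ v.asIdeal, s ^ 2 - s + 1 ≠ 0) (x : K)
    (hx : x ≠ 0) (α β : v.adicCompletion K)
    (h : α ^ 2 + 3 * β ^ 2 = algebraMap K (v.adicCompletion K) x) :
    ∃ k : ℤ, v.valuation K x = exp (2 * k) := by
  obtain ⟨a, b, h0, hv⟩ := exists_form_val_eq137 v x hx α β h
  obtain ⟨k, hk⟩ := val_sq_add_three_sq_even137 v hκ a b h0
  exact ⟨k, by rw [← hv, hk]⟩

end Dedekind

/-! ## K3: real places -/



/-- **K3, REAL PLACE.**  A value of `α² + 3 β²` on the completion at a real place is positive. -/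
theorem real_pos137 {L : Type*} [Field L] (w : InfinitePlace L) (hw : w.IsReal) (x : L)
    (hx : x ≠ 0) (α β : w.Completion)
    (h : α ^ 2 + 3 * β ^ 2 = algebraMap L w.Completion x) :
    0 < w.embedding_of_isReal hw x := by
  have h1 := congrArg (extensionEmbeddingOfIsReal hw) h
  rw [map_add, map_mul, map_pow, map_pow, map_ofNat] at h1
  have h2 : extensionEmbeddingOfIsReal hw (algebraMap L w.Completion x) =
      w.embedding_of_isReal hw x := by
    simp
  rw [h2] at h1
  have h3 : w.embedding_of_isReal hw x ≠ 0 := (map_ne_zero _).mpr hx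
  have h4 : 0 ≤ w.embedding_of_isReal hw x := by rw [← h1]; positivity
  exact lt_of_le_of_ne h4 (Ne.symm h3)

/-! ## The interface in the shape of the hypotheses of `T6.HasseNormQC` -/

/-- K1 at a finite place. -/
theorem locNorm_form_fin137 (L M : Type) [Field L] [NumberField L] [Field M] [NumberField M]
    [Algebra L M] (hp : H438.IsQ3Pair438 L M)
    (u : IsDedekindDomain.HeightOneSpectrum (NumberField.RingOfIntegers L)) (x : L)
    (h : ∃ y : TensorProduct L (u.adicCompletion L) M,
      Algebra.norm (u.adicCompletion L) (S := TensorProduct L (u.adicCompletion L) M) y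
        = algebraMap L (u.adicCompletion L) x) :
    ∃ α β : u.adicCompletion L, α ^ 2 + 3 * β ^ 2 = algebraMap L (u.adicCompletion L) x := by
  obtain ⟨r, hr⟩ := hp.root
  obtain ⟨y, hy⟩ := h
  obtain ⟨α, β, hαβ⟩ := tensor_norm_form137 L M r hr hp.noRoot hp.degM (u.adicCompletion L) y
  exact ⟨α, β, by rw [← hαβ, hy]⟩

/-- K1 at an infinite place. -/
theorem locNorm_form_inf137 (L M : Type) [Field L] [NumberField L] [Field M] [NumberField M]
    [Algebra L M] (hp : H438.IsQ3Pair438 L M) (w : NumberField.InfinitePlace L) (x : L)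
    (h : ∃ y : TensorProduct L w.Completion M,
      Algebra.norm w.Completion (S := TensorProduct L w.Completion M) y
        = algebraMap L w.Completion x) :
    ∃ α β : w.Completion, α ^ 2 + 3 * β ^ 2 = algebraMap L w.Completion x := by
  obtain ⟨r, hr⟩ := hp.root
  obtain ⟨y, hy⟩ := h
  obtain ⟨α, β, hαβ⟩ := tensor_norm_form137 L M r hr hp.noRoot hp.degM w.Completion y
  exact ⟨α, β, by rw [← hαβ, hy]⟩

/-- **K2 in the shape of `IsLocNormFin438`.**  If the residue field of `u` has `≡ 2 mod 3`
elements, every `x ∈ L^×` which is a local norm at `u` has even `u`-adic valuation. -/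
theorem locNorm_parity137 (L M : Type) [Field L] [NumberField L] [Field M] [NumberField M]
    [Algebra L M] (hp : H438.IsQ3Pair438 L M)
    (u : IsDedekindDomain.HeightOneSpectrum (NumberField.RingOfIntegers L))
    (hu : Nat.card (NumberField.RingOfIntegers L ⧸ u.asIdeal) % 3 = 2) (x : L) (hx : x ≠ 0)
    (h : ∃ y : TensorProduct L (u.adicCompletion L) M,
      Algebra.norm (u.adicCompletion L) (S := TensorProduct L (u.adicCompletion L) M) y
        = algebraMap L (u.adicCompletion L) x) :
    ∃ k : ℤ, u.valuation L x = WithZero.exp (2 * k) := by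
  obtain ⟨α, β, hαβ⟩ := locNorm_form_fin137 L M hp u x h
  have := u.isMaximal
  let _ : Field (NumberField.RingOfIntegers L ⧸ u.asIdeal) := Ideal.Quotient.field u.asIdeal
  have hfin : Finite (NumberField.RingOfIntegers L ⧸ u.asIdeal) :=
    Nat.finite_of_card_ne_zero (by omega)
  exact parity_of_local_form137 u (no_root_of_card137 _ hu) x hx α β hαβ

/-- **K3 in the shape of `IsLocNormInf438`.** -/
theorem locNorm_pos137 (L M : Type) [Field L] [NumberField L] [Field M] [NumberField M]
    [Algebra L M] (hp : H438.IsQ3Pair438 L M) (w : NumberField.InfinitePlace L)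
    (hw : w.IsReal) (x : L) (hx : x ≠ 0)
    (h : ∃ y : TensorProduct L w.Completion M,
      Algebra.norm w.Completion (S := TensorProduct L w.Completion M) y
        = algebraMap L w.Completion x) :
    0 < w.embedding_of_isReal hw x := by
  obtain ⟨α, β, hαβ⟩ := locNorm_form_inf137 L M hp w x h
  exact real_pos137 w hw x hx α β hαβ

end Fermat.Agent.LT.T6.H137
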